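import Fermat.Agent.S44.Transport
import Fermat.Prelude.Def_FLTPrelim_ModularRep

/-!
# S44 block (E44), leaf (T2): irreducibility passes from the Frey curve to an integral model
-/

set_option autoImplicit false

namespace Fermat.Agent.S44Lib

open WeierstrassCurve WeierstrassCurve.Affine Polynomial

local notation "Qb" => AlgebraicClosure ℚ
local notation "GQ" => (AlgebraicClosure ℚ ≃ₐ[ℚ] AlgebraicClosure ℚ)

/-- an equivariant isomorphism of the groups of points restricts to the `n`-torsion -/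
theorem T2_torsionEquiv {E E' : WeierstrassCurve ℚ} (Θ : (E⁄Qb).Point ≃+ (E'⁄Qb).Point)
    (hΘ : ∀ (σ : GQ) (P : (E⁄Qb).Point), Θ (σ • P) = σ • Θ P) (n : ℕ) :
    ∃ Φ : Submodule.torsionBy ℤ (E⁄Qb).Point n ≃ₗ[ZMod n] Submodule.torsionBy ℤ (E'⁄Qb).Point n,
      (∀ x, (Φ x : (E'⁄Qb).Point) = Θ x) ∧ ∀ (σ : GQ) x, Φ (σ • x) = σ • Φ x := by
  have h1 : ∀ x : Submodule.torsionBy ℤ (E⁄Qb).Point n,
      Θ x ∈ Submodule.torsionBy ℤ (E'⁄Qb).Point n := by
    intro x
    have hx := (Submodule.mem_torsionBy_iff _ _).mp x.2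
    rw [Submodule.mem_torsionBy_iff, ← map_zsmul, hx, map_zero]
  have h2 : ∀ y : Submodule.torsionBy ℤ (E'⁄Qb).Point n,
      Θ.symm y ∈ Submodule.torsionBy ℤ (E⁄Qb).Point n := by
    intro y
    have hy := (Submodule.mem_torsionBy_iff _ _).mp y.2
    rw [Submodule.mem_torsionBy_iff, ← map_zsmul, hy, map_zero]
  let f : Submodule.torsionBy ℤ (E⁄Qb).Point n →+ Submodule.torsionBy ℤ (E'⁄Qb).Point n :=
    { toFun := fun x => ⟨Θ x, h1 x⟩
      map_zero' := Subtype.ext (map_zero Θ)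
      map_add' := fun x y => Subtype.ext (map_add Θ _ _) }
  have hbij : Function.Bijective (AddMonoidHom.toZModLinearMap n f) := by
    constructor
    · intro x y hxy
      have := congrArg Subtype.val hxy
      exact Subtype.ext (Θ.injective this)
    · intro y
      exact ⟨⟨Θ.symm y, h2 y⟩, Subtype.ext (Θ.apply_symm_apply _)⟩
  refine ⟨LinearEquiv.ofBijective (AddMonoidHom.toZModLinearMap n f) hbij, fun x => rfl, ?_⟩
  intro σ x
  exact Subtype.ext (hΘ σ x)

/-- irreducibility is invariant under equivariant isomorphisms -/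
theorem T2_irr {E E' : WeierstrassCurve ℚ} (Θ : (E⁄Qb).Point ≃+ (E'⁄Qb).Point)
    (hΘ : ∀ (σ : GQ) (P : (E⁄Qb).Point), Θ (σ • P) = σ • Θ P) (n : ℕ)
    (hirr : Affine.Point.GaloisRepIsIrreducible (K := Qb) ℚ E n) :
    Affine.Point.GaloisRepIsIrreducible (K := Qb) ℚ E' n := by
  obtain ⟨Φ, -, hΦ⟩ := T2_torsionEquiv Θ hΘ n
  obtain ⟨hnt, hN⟩ := hirr
  refine ⟨Φ.injective.nontrivial, ?_⟩
  intro N hst
  have hst' : Affine.Point.IsGaloisStable (K := Qb) (W' := E) ℚ (N.comap Φ.toLinearMap) := by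
    intro σ x hx
    rw [Submodule.mem_comap] at hx ⊢
    show Φ (σ • x) ∈ N
    rw [hΦ]
    exact hst σ _ hx
  rcases hN _ hst' with h | h
  · left
    rw [eq_bot_iff]
    intro y hy
    have : Φ.symm y ∈ N.comap Φ.toLinearMap := by
      rw [Submodule.mem_comap]
      show Φ (Φ.symm y) ∈ N
      rwa [Φ.apply_symm_apply]
    rw [h, Submodule.mem_bot] at this
    rw [Submodule.mem_bot, ← Φ.apply_symm_apply y, this, map_zero]
  · right
    rw [eq_top_iff]
    intro y _
    have : Φ.symm y ∈ N.comap Φ.toLinearMap := by rw [h]; trivial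
    rw [Submodule.mem_comap] at this
    have h3 : Φ (Φ.symm y) ∈ N := this
    rwa [Φ.apply_symm_apply] at h3

theorem modRepIsIrreducible_of_model (P : FreyPackage) {W : WeierstrassCurve ℤ}
    (hW : W.IsIntegralModelOf P.freyCurve)
    (hirr : Affine.Point.GaloisRepIsIrreducible (K := Qb) ℚ P.freyCurve P.p) :
    W.ModRepIsIrreducible P.p := by
  obtain ⟨C, hC⟩ := hW
  obtain ⟨Θ, hΘ⟩ := exists_equiv_variableChange P.freyCurve (frey_Δ_ne_zero P) C
  unfold WeierstrassCurve.ModRepIsIrreducible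
  rw [← hC]
  exact T2_irr Θ hΘ P.p hirr

end Fermat.Agent.S44Lib
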