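import Fermat.Agent.S44.TransTres
import Fermat.Agent.S40.EFinalNT

/-!
# S44 block (E44), final statement: the interface for the modular side, for an integral model of
the Frey curve at `p ∣ abc`
-/

set_option autoImplicit false

namespace Fermat.Agent.S44Lib

open WeierstrassCurve WeierstrassCurve.Affine Polynomial
open Fermat.Agent.S05Lib Fermat.Agent.S13Lib Fermat.Agent.S36Lib Fermat.Agent.S52Lib
  Fermat.Agent.S40Lib

local notation "Qb" => AlgebraicClosure ℚ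
local notation "GQ" => (AlgebraicClosure ℚ ≃ₐ[ℚ] AlgebraicClosure ℚ)

/-- **Block (E44), final statement.**  Same conclusions as `S40Lib.e_final`, for an integral model
`W` of the Frey curve, `p = P.p ∣ abc` (multiplicative reduction at `p`). -/
theorem e_final44 (P : FreyPackage) (W : WeierstrassCurve ℤ)
    (hW : W.IsIntegralModelOf P.freyCurve) (hpabc : (P.p : ℤ) ∣ P.a * P.b * P.c)
    (hirr : Affine.Point.GaloisRepIsIrreducible (K := Qb) ℚ P.freyCurve P.p)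
    {V : Type} [AddCommGroup V] [Module (ZMod P.p) V] [Nontrivial V]
    (ρ : GQ →* Module.End (ZMod P.p) V) (hlev : GaloisFactorsThroughFiniteLevel ρ)
    (hV : ∀ N : Submodule (ZMod P.p) V, (∀ g, ∀ x ∈ N, ρ g x ∈ N) → N = ⊥ ∨ N = ⊤)
    (D : ℕ) (hD : D ≠ 0)
    (hquad : ∀ ℓ : ℕ, ℓ.Prime → ¬ ℓ ∣ D → ∀ 𝔄 : ValuationSubring Qb, 𝔄.LiesOverPrime ℓ →
      ∀ σ : GQ, 𝔄.IsFrobeniusAt σ ℓ →
        ρ σ * ρ σ - ((W.apOfModel ℓ : ℤ) : ZMod P.p) • ρ σ
          + (ℓ : ZMod P.p) • (1 : Module.End (ZMod P.p) V) = 0)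
    (A : ValuationSubring Qb) (hA : A.LiesOverPrime P.p)
    {ζ : Qb} (hζ : IsPrimitiveRoot ζ P.p) :
    Module.finrank (ZMod P.p) V = 2 ∧
    (¬ ∀ σ ∈ A.inertiaSubgroupIn ℚ, ρ σ = 1) ∧
    (¬ ∀ σ ∈ A.inertiaSubgroupIn ℚ, ∀ j : ℕ, σ ζ = ζ ^ j →
      ρ σ = (j : ZMod P.p) • (1 : Module.End (ZMod P.p) V)) ∧
    (∀ x y : V, ¬ IsTres A P.p (fun σ => (ρ σ).toAddMonoidHom) x y) := by
  haveI : Fact P.p.Prime := ⟨P.pp⟩
  have hp2 : P.p ≠ 2 := by have := P.hp5; omega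
  exact e_final_nt W (Δ_ne_zero_of_model P hW) hp2 (modRepIsIrreducible_of_model P hW hirr)
    ρ hlev hV D hD hquad A hA (not_isTres_of_model P hpabc hW A hA) hζ

end Fermat.Agent.S44Lib
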