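import Fermat.Agent.S40.TopMain
import Fermat.Agent.S40.GapwInertia
import Fermat.Agent.S40.Lvl.Line
import Fermat.Agent.S44.EFinal44
import Fermat.Prelude.Def_FreyPackage_IsConductorLevel

/-!
# S44 from `CovCore` (the only open input)
-/

set_option autoImplicit false
set_option synthInstance.maxHeartbeats 400000

namespace Fermat.Agent.S44Lib

open Fermat.Agent.S40Lib WeierstrassCurve WeierstrassCurve.Affine.Point

local notation "Qb" => AlgebraicClosure ℚ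

/-- (GAPW) in the shape of `TopDefs` -/
theorem gapwChi_holds : GapwChi := by
  intro M p _ _ _ hpM A hbase hA h hK h1 h2 a₁ a₂ hn1 hn2 σ hσ ζ hζ hζ1 j hj
  exact toric_inertia M p hpM A hbase hA h hK h1 h2 a₁ a₂ hn1 hn2 σ hσ ζ hζ hζ1 j hj

/-- **S44** from (COV) -/
theorem s44_of_cov (HC : CovCore) (P : FreyPackage) {N : ℕ} (hcond : P.IsConductorLevel N)
    (hpN : P.p ∣ N)
    (hirr : GaloisRepIsIrreducible (K := AlgebraicClosure ℚ) ℚ P.freyCurve P.p)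
    (hmod : P.ModularRepOfLevel N) : ∃ M : ℕ, M ∣ N ∧ ¬ P.p ∣ M ∧ P.ModularRepOfLevel M := by
  obtain ⟨M, rfl⟩ := hpN
  have hp : P.p.Prime := P.pp
  have hM0 : M ≠ 0 := by
    rintro rfl
    exact absurd hcond.pos (by simp)
  have hpM : ¬ P.p ∣ M := by
    intro h
    apply hcond.sq_not_dvd hp
    rw [pow_two]
    exact Nat.mul_dvd_mul_left _ h
  have : NeZero M := ⟨hM0⟩
  have : NeZero P.p := ⟨hp.ne_zero⟩
  have : Fact P.p.Prime := ⟨hp⟩
  obtain ⟨f, W, 𝔪, hf, hW, h𝔪, hp𝔪, hcong⟩ := hmod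
  obtain ⟨A, hA⟩ := Fermat.Agent.FrobLib.exists_liesOverPrime hp
  have hpabc := hcond.p_dvd_abc (dvd_mul_right P.p M)
  obtain ⟨g, 𝔫, hg, h𝔫, hp𝔫, hc⟩ := top_generic gapwChi_holds (lineCore_of_cov HC) W
    (Δ_ne_zero_of_model P hW) M P.p P.hp5 hpM (modRepIsIrreducible_of_model P hW hirr) A hA
    (not_isTres_of_model P hpabc hW A hA) ⟨f, 𝔪, hf, h𝔪, hp𝔪, hcong⟩
  exact ⟨M, dvd_mul_left M P.p, hpM, g, W, 𝔫, hg, hW, h𝔫, hp𝔫, hc⟩

end Fermat.Agent.S44Lib
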