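import Fermat.Agent.S44.LocTres
import Fermat.Agent.S05.Final

/-!
# S44 block (E44), leaf (F1): the Frey curve at `p ∣ abc` is not "très ramifiée"
-/

set_option autoImplicit false

namespace Fermat.Agent.S44Lib

open WeierstrassCurve WeierstrassCurve.Affine Polynomial
open Fermat.Agent.S05Lib Fermat.Agent.S13Lib Fermat.Agent.S36Lib Fermat.Agent.S52Lib
  Fermat.Agent.S40Lib

local notation "Qb" => AlgebraicClosure ℚ
local notation "GQ" => (AlgebraicClosure ℚ ≃ₐ[ℚ] AlgebraicClosure ℚ)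

/-- the valuation of an integer divisible by `q` -/
theorem F1_val_int {A : ValuationSubring Qb} {q : ℕ} (hq : q.Prime) (hA : A.LiesOverPrime q)
    {n : ℤ} (hn : n ≠ 0) (hqn : (q : ℤ) ∣ n) :
    ∃ w : ℕ, 0 < w ∧ A.valuation (n : Qb) = A.valuation (q : Qb) ^ w := by
  have hfin : FiniteMultiplicity (q : ℤ) n := by
    rw [Int.finiteMultiplicity_iff]
    exact ⟨by simpa using hq.ne_one, hn⟩
  obtain ⟨c, hc, hqc⟩ := hfin.exists_eq_pow_mul_and_not_dvd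
  refine ⟨multiplicity (q : ℤ) n, ?_, ?_⟩
  · rcases Nat.eq_zero_or_pos (multiplicity (q : ℤ) n) with h | h
    · exfalso
      rw [h, pow_zero, one_mul] at hc
      exact hqc (hc ▸ hqn)
    · exact h
  · conv_lhs => rw [hc]
    push_cast
    rw [map_mul, map_pow, val_int_eq_one hq hA hqc, mul_one]

/-- the Galois action on the points of the Frey curve, as additive maps -/
noncomputable def actF (P : FreyPackage) (σ : GQ) :
    (P.freyCurve⁄Qb).Point →+ (P.freyCurve⁄Qb).Point :=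
  DistribSMul.toAddMonoidHom _ σ

theorem not_isTres_frey (P : FreyPackage) (hpabc : (P.p : ℤ) ∣ P.a * P.b * P.c)
    (A : ValuationSubring Qb) (hA : A.LiesOverPrime P.p) (x y : (P.freyCurve⁄Qb).Point)
    (hx : P.p • x = 0) (hy : P.p • y = 0) : ¬ IsTres A P.p (actF P) x y := by
  have hq := P.pp
  have hq2 : P.p ≠ 2 := by have := P.hp5; omega
  have hq3 : P.p ≠ 3 := by have := P.hp5; omega
  set a : Qb := (P.a : Qb) ^ P.p with ha
  set b : Qb := (P.b : Qb) ^ P.p with hb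
  set c : Qb := (P.c : Qb) ^ P.p with hc
  have habc : a + b = c := by
    rw [ha, hb, hc]; exact_mod_cast congrArg (Int.cast : ℤ → Qb) P.hFLT
  have h20 : (2 : Qb) ≠ 0 := two_ne_zero
  have h₁ : (P.freyCurve⁄Qb).a₁ = 1 := by simp [FreyPackage.freyCurve]
  have h₃ : (P.freyCurve⁄Qb).a₃ = 0 := by simp [FreyPackage.freyCurve]
  have h₆ : (P.freyCurve⁄Qb).a₆ = 0 := by simp [FreyPackage.freyCurve]
  have h₂ : (P.freyCurve⁄Qb).a₂ = (b - 1 - a) / 4 := by simp [FreyPackage.freyCurve, ha, hb]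
  have h₄ : (P.freyCurve⁄Qb).a₄ = -a * b / 16 := by simp [FreyPackage.freyCurve, ha, hb]
  have ha0' : a ≠ 0 := pow_ne_zero _ (by exact_mod_cast P.ha0)
  have hb0' : b ≠ 0 := pow_ne_zero _ (by exact_mod_cast P.hb0)
  have hc0' : c ≠ 0 := pow_ne_zero _ (by exact_mod_cast P.hc0)
  have hq1 : ¬ (P.p : ℤ) ∣ 1 := by
    intro h
    have h' : P.p ∣ 1 := by exact_mod_cast h
    exact hq.one_lt.ne' (Nat.dvd_one.mp h')
  have hab : (P.p : ℤ) ∣ P.a → (P.p : ℤ) ∣ P.b → False :=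
    fun h1 h2 => hq1 (P.hgcdab ▸ dvd_gcd h1 h2)
  have hac : (P.p : ℤ) ∣ P.a → (P.p : ℤ) ∣ P.c → False :=
    fun h1 h2 => hq1 (P.hgcdac ▸ dvd_gcd h1 h2)
  have hunit : ∀ n : ℤ, ¬ (P.p : ℤ) ∣ n → A.valuation ((n : Qb) ^ P.p) = 1 := by
    intro n hn
    rw [map_pow, val_int_eq_one hq hA hn, one_pow]
  have hpw : ∀ n : ℤ, n ≠ 0 → (P.p : ℤ) ∣ n → ∃ w : ℕ, 0 < w ∧
      A.valuation ((n : Qb) ^ P.p) = A.valuation (P.p : Qb) ^ (P.p * w) := by
    intro n hn hqn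
    obtain ⟨w, hw, h⟩ := F1_val_int hq hA hn hqn
    exact ⟨w, hw, by rw [map_pow, h, ← pow_mul, mul_comm]⟩
  have hlt : ∀ w : ℕ, 0 < w → A.valuation (P.p : Qb) ^ (P.p * w) < 1 := by
    intro w hw
    exact pow_lt_one₀ zero_le (val_q_lt_one hA) (Nat.mul_ne_zero hq.ne_zero hw.ne')
  have e0₂ : 3 * 0 + b - a = b - a := by ring
  have e0₄ : 3 * (0 : Qb) ^ 2 + 2 * (b - a) * 0 - a * b = -(a * b) := by ring
  have ea₂ : 3 * a + b - a = a + c := by rw [← habc]; ring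
  have ea₄ : 3 * a ^ 2 + 2 * (b - a) * a - a * b = a * c := by rw [← habc]; ring
  have hσa : ∀ σ : GQ, σ a = a := fun σ => by simp [ha]
  have hd0 : (3 * 0 + b - a) ^ 2 - 4 * (3 * (0 : Qb) ^ 2 + 2 * (b - a) * 0 - a * b) ≠ 0 := by
    have : (3 * 0 + b - a) ^ 2 - 4 * (3 * (0 : Qb) ^ 2 + 2 * (b - a) * 0 - a * b) = c ^ 2 := by
      rw [← habc]; ring
    rw [this]; exact pow_ne_zero 2 hc0'
  have hda : (3 * a + b - a) ^ 2 - 4 * (3 * a ^ 2 + 2 * (b - a) * a - a * b) ≠ 0 := by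
    have : (3 * a + b - a) ^ 2 - 4 * (3 * a ^ 2 + 2 * (b - a) * a - a * b) = b ^ 2 := by ring
    rw [this]; exact pow_ne_zero 2 hb0'
  have hact0 : ∀ σ ∈ A.inertiaSubgroupIn ℚ, ∀ (Q : (P.freyCurve⁄Qb).Point) (X Y : Qb),
      (freyModel (P.freyCurve⁄Qb) h20 a b 0 h₁ h₃ h₆ h₂ h₄ (by ring)).co Q = some (X, Y) →
      (freyModel (P.freyCurve⁄Qb) h20 a b 0 h₁ h₃ h₆ h₂ h₄ (by ring)).co (actF P σ Q)
        = some (σ X, σ Y) :=
    fun σ _ _ _ _ h => freyCo_map P.freyCurve σ 0 (map_zero σ) h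
  have hacta : ∀ σ ∈ A.inertiaSubgroupIn ℚ, ∀ (Q : (P.freyCurve⁄Qb).Point) (X Y : Qb),
      (freyModel (P.freyCurve⁄Qb) h20 a b a h₁ h₃ h₆ h₂ h₄ (by ring)).co Q = some (X, Y) →
      (freyModel (P.freyCurve⁄Qb) h20 a b a h₁ h₃ h₆ h₂ h₄ (by ring)).co (actF P σ Q)
        = some (σ X, σ Y) :=
    fun σ _ _ _ _ h => freyCo_map P.freyCurve σ a (hσa σ) h
  by_cases hqa : (P.p : ℤ) ∣ P.a
  · have hb1 : A.valuation b = 1 := hunit _ (fun h => hab hqa h)
    obtain ⟨w, hw, hva⟩ := hpw _ P.ha0 hqa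
    refine not_isTres_model_mult A hq hq2 hq3 hA
      (freyModel (P.freyCurve⁄Qb) h20 a b 0 h₁ h₃ h₆ h₂ h₄ (by ring)) ?_ hd0 hw ?_ (actF P) hact0
      x y hx hy
    · rw [e0₂, ← hb1]
      apply Valuation.map_sub_eq_of_lt_left
      rw [hb1, hva]
      exact hlt w hw
    · rw [e0₄, Valuation.map_neg, map_mul, hb1, mul_one, hva]
  by_cases hqb : (P.p : ℤ) ∣ P.b
  · have ha1 : A.valuation a = 1 := hunit _ hqa
    obtain ⟨w, hw, hvb⟩ := hpw _ P.hb0 hqb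
    refine not_isTres_model_mult A hq hq2 hq3 hA
      (freyModel (P.freyCurve⁄Qb) h20 a b 0 h₁ h₃ h₆ h₂ h₄ (by ring)) ?_ hd0 hw ?_ (actF P) hact0
      x y hx hy
    · rw [e0₂, ← ha1]
      apply Valuation.map_sub_eq_of_lt_right
      rw [ha1, hvb]
      exact hlt w hw
    · rw [e0₄, Valuation.map_neg, map_mul, ha1, one_mul, hvb]
  · have hqc : (P.p : ℤ) ∣ P.c := by
      have hprime := Nat.prime_iff_prime_int.mp hq
      rcases hprime.dvd_or_dvd hpabc with h | h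
      · rcases hprime.dvd_or_dvd h with h | h
        · exact absurd h hqa
        · exact absurd h hqb
      · exact h
    have ha1 : A.valuation a = 1 := hunit _ hqa
    obtain ⟨w, hw, hvc⟩ := hpw _ P.hc0 hqc
    refine not_isTres_model_mult A hq hq2 hq3 hA
      (freyModel (P.freyCurve⁄Qb) h20 a b a h₁ h₃ h₆ h₂ h₄ (by ring)) ?_ hda hw ?_ (actF P) hacta
      x y hx hy
    · rw [ea₂, ← ha1]
      apply Valuation.map_add_eq_of_lt_left
      rw [ha1, hvc]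
      exact hlt w hw
    · rw [ea₄, map_mul, ha1, one_mul, hvc]

end Fermat.Agent.S44Lib
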