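import Fermat.Agent.S44.LocUnit

/-!
# S44, block (E44), (M2): torsion points near the node
-/

set_option autoImplicit false

namespace Fermat.Agent.S44Lib

open WeierstrassCurve WeierstrassCurve.Affine Polynomial
open Fermat.Agent.S05Lib Fermat.Agent.S13Lib Fermat.Agent.S36Lib Fermat.Agent.S52Lib
  Fermat.Agent.S40Lib

local notation "Qb" => AlgebraicClosure ℚ
local notation "GQ" => (AlgebraicClosure ℚ ≃ₐ[ℚ] AlgebraicClosure ℚ)

section Bridge

variable (A : ValuationSubring Qb) {p : ℕ} (hp : p.Prime) (hA : A.LiesOverPrime p)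

theorem M2_le_iff {x y : Qb} (hx : x ≠ 0) (hy : y ≠ 0) :
    A.valuation x ≤ A.valuation y ↔ (qbarOrd A hp hA).ord y ≤ (qbarOrd A hp hA).ord x :=
  OrdRel.le_iff (val_q_pos hp) (val_q_lt_one hA) (ordDataOf_rel _ _ _ hx) (ordDataOf_rel _ _ _ hy)

theorem M2_lt_iff {x y : Qb} (hx : x ≠ 0) (hy : y ≠ 0) :
    A.valuation x < A.valuation y ↔ (qbarOrd A hp hA).ord y < (qbarOrd A hp hA).ord x := by
  rw [← not_le, ← not_le, M2_le_iff A hp hA hy hx]

theorem M2_eq_iff {x y : Qb} (hx : x ≠ 0) (hy : y ≠ 0) :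
    A.valuation x = A.valuation y ↔ (qbarOrd A hp hA).ord x = (qbarOrd A hp hA).ord y := by
  rw [le_antisymm_iff, le_antisymm_iff, M2_le_iff A hp hA hx hy, M2_le_iff A hp hA hy hx]
  exact and_comm

theorem M2_EQ_pow {x : Qb} {s : ℕ} (h : A.valuation x = A.valuation (p : Qb) ^ s) :
    (qbarOrd A hp hA).EQ x s := by
  have hp0 : (p : Qb) ≠ 0 := by exact_mod_cast hp.ne_zero
  have hx : x ≠ 0 := by
    intro h0
    rw [h0, map_zero] at h
    exact (pow_pos (val_q_pos hp) s).ne h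
  refine ⟨hx, ?_⟩
  rw [← map_pow] at h
  rw [(M2_eq_iff A hp hA hx (pow_ne_zero _ hp0)).1 h]
  have := ((qbarOrd_q hp hA).pow s).2
  rw [this, mul_one]

theorem M2_EQ_one {x : Qb} (h : A.valuation x = 1) : (qbarOrd A hp hA).EQ x 0 := by
  have := M2_EQ_pow A hp hA (x := x) (s := 0) (by rw [h, pow_zero])
  simpa using this

end Bridge

section LocM

variable (A : ValuationSubring Qb) {p : ℕ} (hp : p.Prime) (hp2 : p ≠ 2) (hp3 : p ≠ 3)
  (hA : A.LiesOverPrime p)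
  {G : Type} [AddCommGroup G] {a₂ a₄ : Qb} (M : XYModel Qb G a₂ a₄)
  (ha₂ : A.valuation a₂ = 1) (hd : a₂ ^ 2 - 4 * a₄ ≠ 0)
  {w : ℕ} (hw : 0 < w) (ha₄ : A.valuation a₄ = A.valuation (p : Qb) ^ (p * w))
  (act : GQ → G →+ G)
  (hact : ∀ σ ∈ A.inertiaSubgroupIn ℚ, ∀ (P : G) (X Y : Qb), M.co P = some (X, Y) →
    M.co (act σ P) = some (σ X, σ Y))

include hp hp2 hA ha₂ hd hw ha₄ in
/-- the common part: `m = ord X`, `0 < m < h`, `p m = 2 h k` -/
theorem M2_core {P : G} {X Y : Qb} (hP : M.co P = some (X, Y)) (hpP : p • P = 0)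
    (hX1 : A.valuation X < 1) (hX2 : A.valuation a₄ < A.valuation X) :
    ∃ (m : ℚ) (k : ℤ), (qbarOrd A hp hA).EQ X m ∧ 0 < m ∧ m < ((p * w : ℕ) : ℚ) ∧
      m = 2 * w * k := by
  set O := qbarOrd A hp hA with hO
  obtain ⟨h4, h4lt⟩ := M1_a4 A hp hA hw ha₄
  have h2 : O.EQ (2 : Qb) 0 := M2_EQ_one A hp hA (M1_two A hp hp2 hA)
  have hO2 : O.EQ a₂ 0 := M2_EQ_one A hp hA ha₂
  have hO4 : O.EQ a₄ ((p * w : ℕ) : ℚ) := M2_EQ_pow A hp hA ha₄
  have hX0 : X ≠ 0 := by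
    intro h0
    rw [h0, map_zero] at hX2
    exact not_lt_zero hX2
  have hXm : O.EQ X (O.ord X) := OrdData.eq_self hX0
  have h0 : 0 < O.ord X := by
    have := (M2_lt_iff A hp hA hX0 one_ne_zero).1 (by rw [map_one]; exact hX1)
    rwa [← hO, O.ord_one] at this
  have h3 : O.ord X < ((p * w : ℕ) : ℚ) := by
    have := (M2_lt_iff A hp hA h4 hX0).1 hX2
    rwa [← hO, hO4.2] at this
  obtain ⟨k, hk⟩ := XYModel.ord_of_torsion h2 hO2 hO4 hP hXm h0 h3 hpP
  refine ⟨O.ord X, k, hXm, h0, h3, ?_⟩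
  have hp0 : (p : ℚ) ≠ 0 := by exact_mod_cast hp.ne_zero
  push_cast at hk
  have : (p : ℚ) * O.ord X = p * (2 * w * k) := by rw [hk]; ring
  exact mul_left_cancel₀ hp0 this

/-! ### (M2) `S44/LocInt.lean` -/

include hp hp2 hA ha₂ hd hw ha₄ in
/-- a `p`-torsion point near the node, not on the middle component: `ord X ∈ ℤ` -/
theorem exists_val_X_eq_pow {P : G} {X Y : Qb} (hP : M.co P = some (X, Y)) (hpP : p • P = 0)
    (hX1 : A.valuation X < 1) (hX2 : A.valuation a₄ < A.valuation X) :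
    ∃ s : ℕ, A.valuation X = A.valuation (p : Qb) ^ s := by
  obtain ⟨m, k, hXm, h0, -, hm⟩ := M2_core A hp hp2 hA M ha₂ hd hw ha₄ hP hpP hX1 hX2
  have hp0 : (p : Qb) ≠ 0 := by exact_mod_cast hp.ne_zero
  have hk : 0 < k := by
    by_contra hk
    rw [not_lt] at hk
    have h1 : (k : ℚ) ≤ 0 := by exact_mod_cast hk
    have h2 : (0 : ℚ) ≤ 2 * w := by positivity
    have := mul_nonpos_of_nonneg_of_nonpos h2 h1
    rw [← hm] at this
    exact absurd h0 (not_lt.2 this)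
  refine ⟨2 * w * k.toNat, ?_⟩
  rw [← map_pow, M2_eq_iff A hp hA hXm.1 (pow_ne_zero _ hp0), hXm.2,
    ((qbarOrd_q hp hA).pow _).2, hm, mul_one]
  have : ((k.toNat : ℤ) : ℚ) = k := by rw [Int.toNat_of_nonneg hk.le]
  push_cast
  rw [← this]
  push_cast
  ring

include hp hp2 hA ha₂ hd hw ha₄ in
/-- the tent map: doubling near the node -/
theorem val_X_dbl_ne {P : G} {X Y X' Y' : Qb} (hP : M.co P = some (X, Y)) (hpP : p • P = 0)
    (hp3 : p ≠ 3) (hX1 : A.valuation X < 1) (hX2 : A.valuation a₄ < A.valuation X)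
    (h2P : M.co (2 • P) = some (X', Y')) : A.valuation X' ≠ A.valuation X := by
  intro hXX
  obtain ⟨m, k, hXm, h0, h3, hm⟩ := M2_core A hp hp2 hA M ha₂ hd hw ha₄ hP hpP hX1 hX2
  set O := qbarOrd A hp hA with hO
  have h2 : O.EQ (2 : Qb) 0 := M2_EQ_one A hp hA (M1_two A hp hp2 hA)
  have hO2 : O.EQ a₂ 0 := M2_EQ_one A hp hA ha₂
  have hO4 : O.EQ a₄ ((p * w : ℕ) : ℚ) := M2_EQ_pow A hp hA ha₄
  have hX'0 : X' ≠ 0 := by
    intro h
    rw [h, map_zero] at hXX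
    exact hXm.1 ((map_eq_zero _).1 hXX.symm)
  have hX'm : O.EQ X' m := ⟨hX'0, by rw [(M2_eq_iff A hp hA hX'0 hXm.1).1 hXX, hXm.2]⟩
  have hμP : M.mu O ((p * w : ℕ) : ℚ) P = m := by
    rw [M.mu_of_co hP]; exact OrdData.clamp_of_mem hXm h0.le h3.le
  have hμ2 : M.mu O ((p * w : ℕ) : ℚ) (P + P) = m := by
    rw [← two_smul ℕ P, M.mu_of_co h2P]; exact OrdData.clamp_of_mem hX'm h0.le h3.le
  have key := XYModel.mu_add_sub h2 hO2 hO4 hP hXm h0 h3 P
  rw [sub_self, M.mu_zero, hμP, hμ2] at key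
  have h3m : 3 * m = 2 * ((p * w : ℕ) : ℚ) := by
    rcases key with ⟨k1, -⟩ | ⟨k1, -⟩
    · rcases min_choice (m + m) (2 * ((p * w : ℕ) : ℚ) - m - m) with h' | h' <;> rw [h'] at k1 <;>
        linarith
    · rcases min_choice (m + m) (2 * ((p * w : ℕ) : ℚ) - m - m) with h' | h' <;> rw [h'] at k1 <;>
        linarith
  -- `3 (2 w k) = 2 p w`, so `p = 3 k`
  have hw0 : (w : ℚ) ≠ 0 := by exact_mod_cast hw.ne'
  have h5 : (3 : ℚ) * k = p := by
    rw [hm] at h3m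
    push_cast at h3m
    have : (2 * (w : ℚ)) * (3 * k) = (2 * w) * p := by linarith
    exact mul_left_cancel₀ (mul_ne_zero two_ne_zero hw0) this
  have h6 : (3 : ℤ) * k = p := by exact_mod_cast h5
  have h7 : (3 : ℤ) ∣ p := ⟨k, h6.symm⟩
  have h8 : 3 ∣ p := by exact_mod_cast h7
  exact hp3 ((Nat.prime_dvd_prime_iff_eq Nat.prime_three hp).1 h8).symm

include hp hp2 hA ha₂ hd hw ha₄ in
/-- the middle component: `X (2 P)` is not in the maximal ideal -/
theorem one_le_val_X_dbl {P : G} {X Y : Qb} (hP : M.co P = some (X, Y)) (hpP : p • P = 0)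
    (hX : A.valuation X ≤ A.valuation a₄) :
    ∃ X' Y' : Qb, M.co (2 • P) = some (X', Y') ∧ 1 ≤ A.valuation X' := by
  obtain ⟨h4, h4lt⟩ := M1_a4 A hp hA hw ha₄
  have h2v := M1_two A hp hp2 hA
  obtain ⟨k, hk⟩ := hp.eq_two_or_odd'.resolve_left hp2
  have e := M.eqn hP
  have hP0 := M.ne_zero_of_co hP
  have hY0 : Y ≠ 0 := by
    rintro rfl
    have h1 := M.add_self_eq_zero hP
    apply hP0
    have h3 : (2 * k + 1) • P = k • (P + P) + P := by
      rw [add_smul, one_smul, mul_comm, mul_smul, two_smul]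
    rw [hk, h3, h1, smul_zero, zero_add] at hpP
    exact hpP
  obtain ⟨Y₃, hdbl⟩ := M.co_dbl hP hY0
  refine ⟨_, Y₃, by rw [two_smul]; exact hdbl, ?_⟩
  have h4pos : 0 < A.valuation a₄ := zero_lt_iff.2 ((Valuation.ne_zero_iff _).2 h4)
  have hXX : A.valuation (X ^ 2) < A.valuation a₄ := by
    rw [map_pow, sq]
    calc A.valuation X * A.valuation X ≤ A.valuation a₄ * A.valuation a₄ := mul_le_mul' hX hX
      _ < 1 * A.valuation a₄ := mul_lt_mul_of_pos_right h4lt h4pos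
      _ = _ := one_mul _
  have hN : A.valuation (X ^ 2 - a₄) = A.valuation a₄ := by
    rw [sub_eq_add_neg, Valuation.map_add_eq_of_lt_right _ (by rw [Valuation.map_neg]; exact hXX),
      Valuation.map_neg]
  have hD : A.valuation (Y ^ 2) ≤ A.valuation a₄ ^ 2 := by
    have e' : Y ^ 2 = X * (X ^ 2 + a₂ * X + a₄) := by rw [e]; ring
    rw [e', map_mul, sq (A.valuation a₄)]
    refine mul_le_mul' hX ?_
    refine (A.valuation.map_add _ _).trans (max_le ((A.valuation.map_add _ _).trans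
      (max_le hXX.le ?_)) le_rfl)
    rw [map_mul, ha₂, one_mul]
    exact hX
  have hYpos : 0 < A.valuation (Y ^ 2) :=
    zero_lt_iff.2 ((Valuation.ne_zero_iff _).2 (pow_ne_zero _ hY0))
  rw [map_div₀, map_pow, hN, map_mul, show (4 : Qb) = 2 * 2 by norm_num, map_mul, h2v, one_mul,
    one_mul, one_le_div₀ hYpos]
  exact hD

end LocM

end Fermat.Agent.S44Lib
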