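import Fermat.Agent.S44.LocUnit
import Fermat.Agent.S44.LocInt

/-!
# S44, block (E44), (M3): the cyclotomic line lies in the kernel of reduction, not too deep
-/

set_option autoImplicit false

namespace Fermat.Agent.S44Lib

open WeierstrassCurve WeierstrassCurve.Affine Polynomial
open Fermat.Agent.S05Lib Fermat.Agent.S13Lib Fermat.Agent.S36Lib Fermat.Agent.S52Lib
  Fermat.Agent.S40Lib

local notation "Qb" => AlgebraicClosure ℚ
local notation "GQ" => (AlgebraicClosure ℚ ≃ₐ[ℚ] AlgebraicClosure ℚ)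

section LocM

variable (A : ValuationSubring Qb) {p : ℕ} (hp : p.Prime) (hp2 : p ≠ 2) (hp3 : p ≠ 3)
  (hA : A.LiesOverPrime p)
  {G : Type} [AddCommGroup G] {a₂ a₄ : Qb} (M : XYModel Qb G a₂ a₄)
  (ha₂ : A.valuation a₂ = 1) (hd : a₂ ^ 2 - 4 * a₄ ≠ 0)
  {w : ℕ} (hw : 0 < w) (ha₄ : A.valuation a₄ = A.valuation (p : Qb) ^ (p * w))
  (act : GQ → G →+ G)
  (hact : ∀ σ ∈ A.inertiaSubgroupIn ℚ, ∀ (P : G) (X Y : Qb), M.co P = some (X, Y) →
    M.co (act σ P) = some (σ X, σ Y))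

/-! ### (M3) `S44/LocLine.lean` -/

include hp hp2 hp3 hA ha₂ hd hw ha₄ hact in
/-- a point of the cyclotomic line reduces to `0` -/
theorem X_not_mem_line {ζ : Qb} (hζ : IsPrimitiveRoot ζ p) {Q : G} {X Y : Qb}
    (hQ : M.co Q = some (X, Y)) (hpQ : p • Q = 0)
    (hχ : ∀ σ ∈ A.inertiaSubgroupIn ℚ, ∀ j : ℕ, σ ζ = ζ ^ j → act σ Q = j • Q) : X ∉ A := by
  intro hXA
  obtain ⟨k, hk⟩ := hp.eq_two_or_odd'.resolve_left hp2
  obtain ⟨h4, h4lt⟩ := M1_a4 A hp hA hw ha₄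
  have h2v := M1_two A hp hp2 hA
  have hXle : A.valuation X ≤ 1 := (A.valuation_le_one_iff _).2 hXA
  rcases hXle.eq_or_lt with hX1 | hX1
  · -- the unit case
    have hY1 := Y_unit_of_X_unit A hp hp2 hA M ha₂ hd hw ha₄ hQ hX1 k (hk ▸ hpQ)
    have hYA : Y ∈ A := (A.valuation_le_one_iff _).1 hY1.le
    obtain ⟨σ, hσ, hσζ⟩ := exists_inertia_zeta A hp hA hζ (p - 1)
      (fun h => by have := Nat.le_of_dvd (by have := hp.two_le; omega) h; have := hp.two_le; omega)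
    have hσQ : act σ Q = -Q := by
      rw [hχ σ hσ _ hσζ]
      apply eq_neg_of_add_eq_zero_left
      rw [← succ_nsmul, Nat.sub_add_cancel hp.one_le, hpQ]
    have h1 := hact σ hσ Q X Y hQ
    rw [hσQ, M.co_neg hQ] at h1
    simp only [Option.some.injEq, Prod.mk.injEq] at h1
    have h3 := (inertia_mem hσ hYA).2
    rw [← h1.2, ValuationSubring.mem_nonunits_iff] at h3
    have h5 : -Y - Y = -(2 * Y) := by ring
    rw [h5, Valuation.map_neg, map_mul, h2v, hY1, one_mul] at h3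
    exact lt_irrefl _ h3
  · obtain ⟨σ, hσ, hσζ⟩ := exists_inertia_zeta A hp hA hζ 2
      (fun h => hp2 ((Nat.prime_dvd_prime_iff_eq hp Nat.prime_two).1 h))
    have h1 := hact σ hσ Q X Y hQ
    rw [hχ σ hσ _ hσζ] at h1
    have hv := val_inertia A hσ X
    rcases lt_or_ge (A.valuation a₄) (A.valuation X) with hX2 | hX2
    · exact val_X_dbl_ne A hp hp2 hA M ha₂ hd hw ha₄ hQ hpQ hp3 hX1 hX2 h1 hv
    · obtain ⟨X', Y', h2Q, hX'⟩ := one_le_val_X_dbl A hp hp2 hA M ha₂ hd hw ha₄ hQ hpQ hX2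
      rw [h1] at h2Q
      simp only [Option.some.injEq, Prod.mk.injEq] at h2Q
      rw [← h2Q.1, hv] at hX'
      exact absurd hX1 (not_lt.2 hX')

include hp hp2 hp3 hA ha₂ hd hw ha₄ hact in
/-- `v(x(Q)) ≥ -2/(p-1)` for `Q` in the cyclotomic line -/
theorem val_X_le_mult {ζ : Qb} (hζ : IsPrimitiveRoot ζ p) {Q : G} {X Y : Qb}
    (hQ : M.co Q = some (X, Y)) (hpQ : p • Q = 0)
    (hχ : ∀ σ ∈ A.inertiaSubgroupIn ℚ, ∀ j : ℕ, σ ζ = ζ ^ j → act σ Q = j • Q) :
    X ∉ A ∧ A.valuation X * A.valuation (ζ - 1) ^ 2 ≤ 1 := by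
  classical
  obtain ⟨k, hk⟩ := hp.eq_two_or_odd'.resolve_left hp2
  have hk1 : 1 ≤ k := by
    have := hp.two_le
    omega
  have h20 : (2 : Qb) ≠ 0 := two_ne_zero
  obtain ⟨h4, h4lt⟩ := M1_a4 A hp hA hw ha₄
  have ha₂A : a₂ ∈ A := (A.valuation_le_one_iff _).1 ha₂.le
  have ha₄A : a₄ ∈ A := (A.valuation_le_one_iff _).1 h4lt.le
  have hQ0 := M.ne_zero_of_co hQ
  have hord : addOrderOf Q = p := by
    have : Fact p.Prime := ⟨hp⟩
    exact addOrderOf_eq_prime hpQ hQ0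
  have hX : X ∉ A := X_not_mem_line A hp hp2 hp3 hA M ha₂ hd hw ha₄ act hact hζ hQ hpQ hχ
  refine ⟨hX, ?_⟩
  have hν := (L1_not_mem_iff A).mp hX
  have H : ∀ j : ℕ, ∃ σ : GQ, ¬ p ∣ j → σ ∈ A.inertiaSubgroupIn ℚ ∧ σ ζ = ζ ^ j := by
    intro j
    by_cases hj : p ∣ j
    · exact ⟨1, fun h => absurd hj h⟩
    · obtain ⟨σ, h1, h3⟩ := exists_inertia_zeta A hp hA hζ j hj
      exact ⟨σ, fun _ => ⟨h1, h3⟩⟩
  choose s hs using H
  have hnd : ∀ j ∈ Finset.Icc 1 k, ¬ p ∣ j := by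
    intro j hj h
    rw [Finset.mem_Icc] at hj
    have := Nat.le_of_dvd (by omega) h
    omega
  have hco : ∀ j ∈ Finset.Icc 1 k, M.co (j • Q) = some (s j X, s j Y) := by
    intro j hj
    obtain ⟨h1, h3⟩ := hs j (hnd j hj)
    rw [← hχ (s j) h1 j h3]
    exact hact (s j) h1 Q X Y hQ
  have hinj : Set.InjOn (fun j => s j X) (Finset.Icc 1 k : Set ℕ) := by
    intro j hj j' hj' hjj
    have hj1 := Finset.mem_Icc.mp (Finset.mem_coe.mp hj)
    have hj2 := Finset.mem_Icc.mp (Finset.mem_coe.mp hj')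
    have e1 := hco j hj
    have e2 := hco j' hj'
    simp only at hjj
    rw [hjj] at e1
    rcases M.eq_or_eq_neg e1 e2 with h | h
    · have h3 : ((j : ℤ) - j') • Q = 0 := by
        rw [sub_smul, natCast_zsmul, natCast_zsmul, h, sub_self]
      rw [← addOrderOf_dvd_iff_zsmul_eq_zero, hord] at h3
      obtain ⟨c, hc⟩ := h3
      have hc0 : c = 0 := by
        by_contra hc0
        rcases lt_or_gt_of_ne hc0 with h5 | h5
        · have : (p : ℤ) * c ≤ (p : ℤ) * (-1) :=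
            mul_le_mul_of_nonneg_left (by omega) (by positivity)
          omega
        · have : (p : ℤ) * 1 ≤ (p : ℤ) * c :=
            mul_le_mul_of_nonneg_left (by omega) (by positivity)
          omega
      rw [hc0, mul_zero] at hc
      omega
    · exfalso
      have h3 : (j + j') • Q = 0 := by
        rw [add_smul, h, neg_add_cancel]
      rw [← addOrderOf_dvd_iff_nsmul_eq_zero, hord] at h3
      have := Nat.le_of_dvd (by omega) h3
      omega
  have hGN := lc_mul_prod_roots_mem A (divD a₂ a₄ k) (L1_divD_coeff A ha₂A ha₄A k)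
    ((Finset.Icc 1 k).image (fun j => s j X)) (by
      intro x hx
      obtain ⟨j, hj, rfl⟩ := Finset.mem_image.mp hx
      refine ⟨(nsmul_eq_zero_iff M h20 h4 hd (hco j hj) k).mp ?_, ?_⟩
      · rw [← hk, smul_comm, hpQ, smul_zero]
      · rw [L1_not_mem_iff, val_inertia A (hs j (hnd j hj)).1]
        exact hν)
  have hlc : (divD a₂ a₄ k).leadingCoeff = -(p : Qb) := by
    have hc := divD_coeff a₂ a₄ k
    have hc0 : (divD a₂ a₄ k).coeff (2 * k ^ 2 + 2 * k) ≠ 0 := by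
      rw [hc, neg_ne_zero]
      have : (2 * (k : Qb) + 1) = ((2 * k + 1 : ℕ) : Qb) := by push_cast; ring
      rw [this]
      exact Nat.cast_ne_zero.mpr (Nat.succ_ne_zero _)
    have hdeg : (divD a₂ a₄ k).natDegree = 2 * k ^ 2 + 2 * k :=
      le_antisymm (divD_natDegree_le a₂ a₄ k) (le_natDegree_of_ne_zero hc0)
    rw [leadingCoeff, hdeg, hc, hk]
    push_cast
    ring
  rw [hlc, Finset.prod_image hinj, ← A.valuation_le_one_iff, map_mul, Valuation.map_neg,
    map_prod, ← K0d_val_zeta A hp hζ] at hGN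
  have hprod : ∏ j ∈ Finset.Icc 1 k, A.valuation (s j X) = A.valuation X ^ k := by
    rw [Finset.prod_congr rfl (fun j hj => val_inertia A (hs j (hnd j hj)).1 X),
      Finset.prod_const, Nat.card_Icc, Nat.add_sub_cancel]
  rw [hprod, show p - 1 = 2 * k by omega, pow_mul, ← mul_pow] at hGN
  by_contra hcon
  rw [not_le] at hcon
  have h5 := one_lt_pow₀ hcon (n := k) (by omega)
  rw [mul_comm] at h5
  exact absurd hGN (not_le.mpr h5)

end LocM

end Fermat.Agent.S44Lib
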