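import Fermat.Agent.S44.LocLine
import Fermat.Agent.S40.LocTres

/-!
# S44 block (E44), (M4): multiplicative reduction at `p` with `p ∣ ord a₄` excludes "très ramifiée"
-/

set_option autoImplicit false

namespace Fermat.Agent.S44Lib

open WeierstrassCurve WeierstrassCurve.Affine Polynomial
open Fermat.Agent.S05Lib Fermat.Agent.S13Lib Fermat.Agent.S36Lib Fermat.Agent.S52Lib
  Fermat.Agent.S40Lib

local notation "Qb" => AlgebraicClosure ℚ
local notation "GQ" => (AlgebraicClosure ℚ ≃ₐ[ℚ] AlgebraicClosure ℚ)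

/-- near the node: `ν(Y) = ν(X)` -/
private theorem M4_val_Y {K : Type} [Field K] (A : ValuationSubring K) {a₂ a₄ X Y : K}
    (ha₂ : A.valuation a₂ = 1) (e : Y ^ 2 = X ^ 3 + a₂ * X ^ 2 + a₄ * X)
    (hX1 : A.valuation X < 1) (hX2 : A.valuation a₄ < A.valuation X) :
    A.valuation Y = A.valuation X := by
  have hX0 : A.valuation X ≠ 0 := ne_of_gt (lt_of_le_of_lt zero_le hX2)
  have h1 : A.valuation (X ^ 2 + a₂ * X + a₄) = A.valuation X := by
    have e1 : X ^ 2 + a₂ * X + a₄ = a₂ * X + (X ^ 2 + a₄) := by ring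
    have e2 : A.valuation (a₂ * X) = A.valuation X := by rw [map_mul, ha₂, one_mul]
    rw [e1, ← e2]
    apply Valuation.map_add_eq_of_lt_left
    rw [e2]
    refine lt_of_le_of_lt (Valuation.map_add _ _ _) (max_lt ?_ hX2)
    rw [map_pow, sq]
    calc A.valuation X * A.valuation X < 1 * A.valuation X :=
          mul_lt_mul_of_pos_right hX1 (zero_lt_iff.mpr hX0)
      _ = A.valuation X := one_mul _
  have h2 : A.valuation Y ^ 2 = A.valuation X ^ 2 := by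
    have e1 : Y ^ 2 = X * (X ^ 2 + a₂ * X + a₄) := by rw [e]; ring
    rw [← map_pow, e1, map_mul, h1, sq]
  exact (pow_left_inj₀ zero_le zero_le two_ne_zero).mp h2

section LocM

variable (A : ValuationSubring Qb) {p : ℕ} (hp : p.Prime) (hp2 : p ≠ 2) (hp3 : p ≠ 3)
  (hA : A.LiesOverPrime p)
  {G : Type} [AddCommGroup G] {a₂ a₄ : Qb} (M : XYModel Qb G a₂ a₄)
  (ha₂ : A.valuation a₂ = 1) (hd : a₂ ^ 2 - 4 * a₄ ≠ 0)
  {w : ℕ} (hw : 0 < w) (ha₄ : A.valuation a₄ = A.valuation (p : Qb) ^ (p * w))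
  (act : GQ → G →+ G)
  (hact : ∀ σ ∈ A.inertiaSubgroupIn ℚ, ∀ (P : G) (X Y : Qb), M.co P = some (X, Y) →
    M.co (act σ P) = some (σ X, σ Y))

/-! ### (M4) `S44/LocTres.lean` -/

include hp hp2 hp3 hA ha₂ hd hw ha₄ hact in
/-- the core: `x` not on the middle component -/
theorem not_isTres_core (x y : G) (hx : p • x = 0) (hy : p • y = 0)
    (hmid : ∀ X Y : Qb, M.co x = some (X, Y) → A.valuation a₄ < A.valuation X) :
    ¬ IsTres A p act x y := by
  rintro ⟨ζ, ϖ, u, n, hζ, hu0, hu, hfix, hϖ, hn, hy0, hχ, hκ⟩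
  obtain ⟨k, hk⟩ := hp.eq_two_or_odd'.resolve_left hp2
  have h2 := L3_two A hk hA
  have ha₂A : a₂ ∈ A := (A.valuation_le_one_iff _).mp ha₂.le
  have hvp : A.valuation (p : Qb) < 1 := val_q_lt_one hA
  have ha₄A : a₄ ∈ A := by
    rw [← A.valuation_le_one_iff, ha₄]
    exact pow_le_one₀ zero_le hvp.le
  obtain ⟨τ, hτ, hτζ, hτϖ⟩ := exists_tau A hp hA hζ hu0 hu hfix hϖ hn
  have hτy : act τ y = y := by
    have := hχ τ hτ 1 (by rw [pow_one]; exact hτζ)
    rwa [one_smul] at this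
  have hτx : act τ x = x + y := by
    have := hκ τ hτ hτζ 1 (by rw [pow_one]; exact hτϖ)
    rwa [one_smul] at this
  have hx0 : x ≠ 0 := by
    rintro rfl
    rw [map_zero, zero_add] at hτx
    exact hy0 hτx.symm
  obtain ⟨X₁, Y₁, hcx⟩ := M.exists_co_of_ne_zero hx0
  obtain ⟨X₂, Y₂, hcy⟩ := M.exists_co_of_ne_zero hy0
  have hXne : X₁ ≠ X₂ := by
    rintro rfl
    rcases M.eq_or_eq_neg hcx hcy with h | h
    · rw [h, hτy] at hτx
      exact hy0 (left_eq_add.mp hτx)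
    · rw [h, map_neg, hτy] at hτx
      exact hy0 (left_eq_add.mp hτx)
  obtain ⟨T₁, T₂, Z₁, Z₂, hadd, hsub, -, hprod⟩ := M.co_add_sub hcx hcy hXne
  obtain ⟨Z₁', hadd'⟩ := M.co_add hcx hcy hXne
  obtain ⟨Z₂', hsub'⟩ := M.co_sub hcx hcy hXne
  have hT₁ : T₁ = ((Y₁ - Y₂) / (X₁ - X₂)) ^ 2 - a₂ - X₁ - X₂ := by
    rw [hadd] at hadd'
    simp only [Option.some.injEq, Prod.mk.injEq] at hadd'
    exact hadd'.1
  have hT₂ : T₂ = ((Y₁ + Y₂) / (X₁ - X₂)) ^ 2 - a₂ - X₁ - X₂ := by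
    rw [hsub] at hsub'
    simp only [Option.some.injEq, Prod.mk.injEq] at hsub'
    exact hsub'.1
  have hd0 : X₁ - X₂ ≠ 0 := sub_ne_zero.mpr hXne
  have hdiff : (T₁ - T₂) * (X₁ - X₂) ^ 2 = -(4 * (Y₁ * Y₂)) := by
    rw [hT₁, hT₂]
    field_simp
    ring
  have h1 : τ T₂ = X₁ := by
    have := hact τ hτ (x - y) T₂ Z₂ hsub
    rw [map_sub, hτx, hτy, add_sub_cancel_right, hcx] at this
    simp only [Option.some.injEq, Prod.mk.injEq] at this
    exact this.1.symm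
  have h1' : τ X₁ = T₁ := by
    have := hact τ hτ x X₁ Y₁ hcx
    rw [hτx, hadd] at this
    simp only [Option.some.injEq, Prod.mk.injEq] at this
    exact this.1.symm
  have hc : ∀ σ ∈ A.inertiaSubgroupIn ℚ, σ ζ = ζ → σ ϖ = ϖ → σ T₂ = T₂ := by
    intro σ hσ hσζ hσϖ
    have e1 : act σ x = x := by
      have := hκ σ hσ hσζ 0 (by rw [pow_zero, one_mul]; exact hσϖ)
      rwa [zero_smul, add_zero] at this
    have e2 : act σ y = y := by
      have := hχ σ hσ 1 (by rw [pow_one]; exact hσζ)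
      rwa [one_smul] at this
    have := hact σ hσ (x - y) T₂ Z₂ hsub
    rw [map_sub, e1, e2, hsub] at this
    simp only [Option.some.injEq, Prod.mk.injEq] at this
    exact this.1.symm
  obtain ⟨hX₂, hle⟩ := val_X_le_mult A hp hp2 hp3 hA M ha₂ hd hw ha₄ act hact hζ hcy hy hχ
  have hξ := (L1_not_mem_iff A).mp hX₂
  have hl0 : A.valuation (ζ - 1) ≠ 0 :=
    (Valuation.ne_zero_iff _).mpr (hζ.sub_one_ne_zero hp.one_lt)
  have hv2 : A.valuation (2 : Qb) = 1 :=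
    L4_val_eq_one A (by exact_mod_cast natCast_mem A 2) h2
  have hv4 : A.valuation (4 : Qb) = 1 := by
    have : (4 : Qb) = 2 * 2 := by norm_num
    rw [this, map_mul, hv2, one_mul]
  have hy₂ := L4_val_Y A ha₂A ha₄A (M.eqn hcy) hξ
  have hττ : τ * τ ∈ A.inertiaSubgroupIn ℚ := mul_mem hτ hτ
  have hττζ : (τ * τ) ζ = ζ := by rw [AlgEquiv.mul_apply, hτζ, hτζ]
  have hττT : (τ * τ) T₂ = T₁ := by rw [AlgEquiv.mul_apply, h1, h1']
  have hb : A.valuation (T₁ - T₂) * A.valuation (X₁ - X₂) ^ 2 =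
      A.valuation Y₁ * A.valuation Y₂ := by
    rw [← map_pow, ← map_mul, hdiff, Valuation.map_neg, map_mul, map_mul, hv4, one_mul]
  have hvT₂ : A.valuation T₂ = A.valuation X₁ := by rw [← h1, val_inertia A hτ]
  have hvT₁ : A.valuation T₁ = A.valuation X₁ := by rw [← h1', val_inertia A hτ]
  by_cases hX₁ : X₁ ∈ A
  · have hd' : A.valuation (X₁ - X₂) = A.valuation X₂ :=
      Valuation.map_sub_eq_of_lt_right _
        (lt_of_le_of_lt ((A.valuation_le_one_iff _).mpr hX₁) hξ)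
    rcases lt_or_eq_of_le ((A.valuation_le_one_iff _).mpr hX₁) with hlt | heq
    · -- near the node
      have hX2 := hmid X₁ Y₁ hcx
      obtain ⟨s, hs⟩ := exists_val_X_eq_pow A hp hp2 hA M ha₂ hd hw ha₄ hcx hx hlt hX2
      have hvY₁ : A.valuation Y₁ = A.valuation X₁ := M4_val_Y A ha₂ (M.eqn hcx) hlt hX2
      have hp0 : ((p : Qb)) ^ s ≠ 0 := pow_ne_zero _ (by exact_mod_cast hp.ne_zero)
      have hvps : A.valuation ((p : Qb) ^ s) = A.valuation X₁ := by rw [map_pow, hs]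
      have hvps0 : A.valuation ((p : Qb) ^ s) ≠ 0 := (Valuation.ne_zero_iff _).mpr hp0
      have hT₂A : T₂ / (p : Qb) ^ s ∈ A := by
        rw [← A.valuation_le_one_iff, map_div₀, hvT₂, hvps, div_self (hvps ▸ hvps0)]
      obtain ⟨x₀, hx₀K, hx₀A, hx₀⟩ := exists_K0_residue A hp hA hT₂A
      have hfixp : ∀ σ : GQ, σ ((p : Qb) ^ s) = (p : Qb) ^ s := by
        intro σ
        rw [map_pow, map_natCast]
      have htr := tr_bound A hp hA hζ hu0 hu hfix hϖ hn hττ hττζ (c := T₂ / (p : Qb) ^ s - x₀) (by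
        intro σ hσ h3 h4
        rw [map_sub, map_div₀, hc σ hσ h3 h4, hfixp, mem_K0_iff.mp hx₀K σ hσ])
      have e0 : (τ * τ) (T₂ / (p : Qb) ^ s - x₀) - (T₂ / (p : Qb) ^ s - x₀)
          = (T₁ - T₂) / (p : Qb) ^ s := by
        rw [map_sub, map_div₀, hττT, hfixp, mem_K0_iff.mp hx₀K _ hττ]
        ring
      rw [e0] at htr
      refine L4_absA hξ ?_ hy₂ htr ((ValuationSubring.mem_nonunits_iff A).mp hx₀) hl0 hle
      rw [map_div₀, hvps, ← hd', div_mul_eq_mul_div, hb, hvY₁, mul_div_assoc, mul_comm,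
        div_mul_cancel₀ _ (hvps ▸ hvps0)]
    · have hvY₁ := Y_unit_of_X_unit A hp hp2 hA M ha₂ hd hw ha₄ hcx heq k (hk ▸ hx)
      have hT₂A : T₂ ∈ A := by
        rw [← A.valuation_le_one_iff, hvT₂]
        exact (A.valuation_le_one_iff _).mpr hX₁
      obtain ⟨x₀, hx₀K, hx₀A, hx₀⟩ := exists_K0_residue A hp hA hT₂A
      have htr := tr_bound A hp hA hζ hu0 hu hfix hϖ hn hττ hττζ (c := T₂ - x₀) (by
        intro σ hσ h3 h4
        rw [map_sub, hc σ hσ h3 h4, mem_K0_iff.mp hx₀K σ hσ])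
      have e0 : (τ * τ) (T₂ - x₀) - (T₂ - x₀) = T₁ - T₂ := by
        rw [map_sub, hττT, mem_K0_iff.mp hx₀K _ hττ]
        ring
      rw [e0] at htr
      exact L4_absA hξ (by rw [← hd', hb, hvY₁, one_mul]) hy₂ htr
        ((ValuationSubring.mem_nonunits_iff A).mp hx₀) hl0 hle
  · have hξ₁ := (L1_not_mem_iff A).mp hX₁
    have hy₁ := L4_val_Y A ha₂A ha₄A (M.eqn hcx) hξ₁
    have hX₁0 : A.valuation X₁ ≠ 0 := ne_of_gt (lt_trans zero_lt_one hξ₁)
    have hT₁0 : T₁ ≠ 0 := (Valuation.ne_zero_iff _).mp (by rw [hvT₁]; exact hX₁0)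
    have hT₂0 : T₂ ≠ 0 := (Valuation.ne_zero_iff _).mp (by rw [hvT₂]; exact hX₁0)
    have htr := tr_bound A hp hA hζ hu0 hu hfix hϖ hn hττ hττζ (c := T₂⁻¹) (by
      intro σ hσ h3 h4
      rw [map_inv₀, hc σ hσ h3 h4])
    have e0 : (τ * τ) T₂⁻¹ = T₁⁻¹ := by rw [map_inv₀, hττT]
    rw [e0, map_inv₀, hvT₂] at htr
    have h4 : A.valuation X₁ ^ 2 * A.valuation (X₁ - X₂) ^ 2 =
        (A.valuation X₁ * A.valuation X₂) ^ 2 := by
      have e1 : T₁ * T₂ * (X₁ - X₂) ^ 2 = (X₁ * X₂ - a₄) ^ 2 := by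
        rw [hprod]
        field_simp
      have e2 : A.valuation (X₁ * X₂ - a₄) = A.valuation X₁ * A.valuation X₂ := by
        rw [← map_mul]
        apply Valuation.map_sub_eq_of_lt_left
        rw [map_mul]
        exact lt_of_le_of_lt ((A.valuation_le_one_iff _).mpr ha₄A) (one_lt_mul'' hξ₁ hξ)
      have e3 := congrArg A.valuation e1
      rw [map_mul, map_mul, map_pow, map_pow, hvT₁, hvT₂, e2] at e3
      rw [← e3, sq (A.valuation X₁)]
    have h5 : A.valuation (T₁⁻¹ - T₂⁻¹) * A.valuation X₁ ^ 2 = A.valuation (T₁ - T₂) := by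
      have e1 : (T₁⁻¹ - T₂⁻¹) * (T₁ * T₂) = T₂ - T₁ := by
        field_simp
      rw [Valuation.map_sub_swap _ T₁ T₂, ← e1, map_mul, map_mul, hvT₁, hvT₂, sq]
    exact L4_absB hξ hξ₁ hb hy₁ hy₂ h4 h5 htr hle

/-- `IsTres` is stable under multiplication by `2` -/
theorem IsTres.two_nsmul {A : ValuationSubring Qb} {p : ℕ} (hp : p.Prime) (hp2 : p ≠ 2)
    {G : Type} [AddCommGroup G] {act : GQ → G →+ G} {x y : G} (hy : p • y = 0)
    (h : IsTres A p act x y) : IsTres A p act (2 • x) (2 • y) := by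
  obtain ⟨ζ, ϖ, u, n, hζ, hu0, hu, hfix, hϖ, hn, hy0, hχ, hκ⟩ := h
  obtain ⟨k, hk⟩ := hp.eq_two_or_odd'.resolve_left hp2
  refine ⟨ζ, ϖ, u, n, hζ, hu0, hu, hfix, hϖ, hn, ?_, ?_, ?_⟩
  · intro h0
    apply hy0
    have e : y = p • y - k • (2 • y) := by
      rw [hk, smul_smul, add_smul, one_smul, mul_comm k 2]
      abel
    rw [e, hy, h0, smul_zero, sub_zero]
  · intro σ hσ j hj
    rw [map_nsmul, hχ σ hσ j hj, smul_comm]
  · intro σ hσ hσζ j hj
    rw [map_nsmul, hκ σ hσ hσζ j hj, smul_add, smul_comm]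

include hp hp2 hp3 hA ha₂ hd hw ha₄ hact in
/-- **multiplicative reduction at `p` with `p ∣ ord a₄` excludes très ramifiée** -/
theorem not_isTres_model_mult (x y : G) (hx : p • x = 0) (hy : p • y = 0) :
    ¬ IsTres A p act x y := by
  intro hT
  by_cases hmid : ∀ X Y : Qb, M.co x = some (X, Y) → A.valuation a₄ < A.valuation X
  · exact not_isTres_core A hp hp2 hp3 hA M ha₂ hd hw ha₄ act hact x y hx hy hmid hT
  · push Not at hmid
    obtain ⟨X, Y, hcx, hX⟩ := hmid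
    obtain ⟨X', Y', h2x, hX'⟩ := one_le_val_X_dbl A hp hp2 hA M ha₂ hd hw ha₄ hcx hx hX
    have hvp : A.valuation (p : Qb) < 1 := val_q_lt_one hA
    have ha₄lt : A.valuation a₄ < 1 := by
      rw [ha₄]
      exact pow_lt_one₀ zero_le hvp (Nat.mul_ne_zero hp.ne_zero hw.ne')
    refine not_isTres_core A hp hp2 hp3 hA M ha₂ hd hw ha₄ act hact (2 • x) (2 • y)
      (by rw [smul_comm, hx, smul_zero]) (by rw [smul_comm, hy, smul_zero]) ?_
      (IsTres.two_nsmul hp hp2 hy hT)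
    intro X'' Y'' h
    rw [h2x] at h
    simp only [Option.some.injEq, Prod.mk.injEq] at h
    rw [← h.1]
    exact lt_of_lt_of_le ha₄lt hX'

end LocM

end Fermat.Agent.S44Lib
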