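import Fermat.Agent.S40.EFinal
import Fermat.Agent.S13.FreyP
import Fermat.Agent.S05.Final

/-!
# S44, block (E44), (M1): a torsion point of odd order with unit `X` has unit `Y`
-/

set_option autoImplicit false

namespace Fermat.Agent.S44Lib

open WeierstrassCurve WeierstrassCurve.Affine Polynomial
open Fermat.Agent.S05Lib Fermat.Agent.S13Lib Fermat.Agent.S36Lib Fermat.Agent.S52Lib
  Fermat.Agent.S40Lib

local notation "Qb" => AlgebraicClosure ℚ
local notation "GQ" => (AlgebraicClosure ℚ ≃ₐ[ℚ] AlgebraicClosure ℚ)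

section LocM

variable (A : ValuationSubring Qb) {p : ℕ} (hp : p.Prime) (hp2 : p ≠ 2) (hp3 : p ≠ 3)
  (hA : A.LiesOverPrime p)
  {G : Type} [AddCommGroup G] {a₂ a₄ : Qb} (M : XYModel Qb G a₂ a₄)
  (ha₂ : A.valuation a₂ = 1) (hd : a₂ ^ 2 - 4 * a₄ ≠ 0)
  {w : ℕ} (hw : 0 < w) (ha₄ : A.valuation a₄ = A.valuation (p : Qb) ^ (p * w))
  (act : GQ → G →+ G)
  (hact : ∀ σ ∈ A.inertiaSubgroupIn ℚ, ∀ (P : G) (X Y : Qb), M.co P = some (X, Y) →
    M.co (act σ P) = some (σ X, σ Y))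

include hp hA hw ha₄ in
/-- `a₄` is a non zero element of the maximal ideal -/
theorem M1_a4 : a₄ ≠ 0 ∧ A.valuation a₄ < 1 := by
  have h0 : 0 < A.valuation (p : Qb) := val_q_pos hp
  have h1 : A.valuation (p : Qb) < 1 := val_q_lt_one hA
  constructor
  · intro h
    rw [h, map_zero] at ha₄
    exact (pow_pos h0 _).ne ha₄
  · rw [ha₄]
    exact pow_lt_one₀ h0.le h1 (Nat.mul_pos hp.pos hw).ne'

include hp hp2 hA in
/-- `2` is a unit -/
theorem M1_two : A.valuation (2 : Qb) = 1 := by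
  have h := val_int_eq_one (A := A) hp hA (n := 2) (by
    intro h
    have h1 : p ∣ 2 := by exact_mod_cast h
    exact hp2 ((Nat.prime_dvd_prime_iff_eq hp Nat.prime_two).1 h1))
  simpa using h

/-! ### (M1) `S44/LocUnit.lean` -/

include hp hp2 hA ha₂ hd hw ha₄ in
/-- a torsion point of odd order whose `X` is a unit has `Y` a unit -/
theorem Y_unit_of_X_unit {P : G} {X Y : Qb} (hP : M.co P = some (X, Y))
    (hX : A.valuation X = 1) (k : ℕ) (hPk : (2 * k + 1) • P = 0) : A.valuation Y = 1 := by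
  obtain ⟨h4, h4lt⟩ := M1_a4 A hp hA hw ha₄
  have h2v := M1_two A hp hp2 hA
  have ha₂A : a₂ ∈ A := (A.valuation_le_one_iff _).1 ha₂.le
  have ha₄A : a₄ ∈ A := (A.valuation_le_one_iff _).1 h4lt.le
  have hXA : X ∈ A := (A.valuation_le_one_iff _).1 hX.le
  have e := M.eqn hP
  have hY : Y ∈ A := by
    apply L2_mem_of_sq_mem
    rw [e]
    exact A.add_mem _ _ (A.add_mem _ _ (pow_mem hXA 3) (A.mul_mem _ _ ha₂A (pow_mem hXA 2)))
      (A.mul_mem _ _ ha₄A hXA)
  have hYle : A.valuation Y ≤ 1 := (A.valuation_le_one_iff _).2 hY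
  by_contra hne
  have hYlt : A.valuation Y < 1 := lt_of_le_of_ne hYle hne
  have h20 : (2 : Qb) ≠ 0 := two_ne_zero
  have hP0 := M.ne_zero_of_co hP
  have hY0 : Y ≠ 0 := by
    rintro rfl
    have h1 := M.add_self_eq_zero hP
    apply hP0
    have h3 : (2 * k + 1) • P = k • (P + P) + P := by
      rw [add_smul, one_smul, mul_comm, mul_smul, two_smul]
    rw [h3, h1, smul_zero, zero_add] at hPk
    exact hPk
  have hU : A.valuation (X ^ 2 - a₄) = 1 := by
    have h1 : A.valuation (X ^ 2) = 1 := by rw [map_pow, hX, one_pow]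
    rw [sub_eq_add_neg, Valuation.map_add_eq_of_lt_left _ (by rw [Valuation.map_neg, h1]; exact h4lt),
      h1]
  obtain ⟨Y₃, hdbl⟩ := M.co_dbl hP hY0
  have hX2 : (X ^ 2 - a₄) ^ 2 / (4 * Y ^ 2) ∉ A := by
    rw [L1_not_mem_iff, map_div₀, map_pow, hU, one_pow, map_mul, map_pow,
      show (4 : Qb) = 2 * 2 by norm_num, map_mul, h2v, one_mul, one_mul]
    have hpos : 0 < A.valuation Y ^ 2 :=
      pow_pos (zero_lt_iff.2 ((Valuation.ne_zero_iff _).2 hY0)) 2
    rw [one_div]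
    exact (one_lt_inv₀ hpos).2 (pow_lt_one₀ zero_le hYlt two_ne_zero)
  have h6 : (k + 1) • (P + P) = P := by
    have : (k + 1) • (P + P) = (2 * k + 1) • P + P := by
      rw [← two_smul ℕ P, ← mul_smul, ← succ_nsmul]
      congr 1
      ring
    rw [this, hPk, zero_add]
  exact X_nsmul_not_mem A M ha₂A ha₄A h20 h4 hd hdbl hX2 (k + 1) (h6 ▸ hP) hXA

end LocM

end Fermat.Agent.S44Lib
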