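import Fermat.Agent.S44.FreyTres
import Fermat.Agent.S44.TransIrr

/-!
# S44 block (E44), leaf (T3): an integral model of the Frey curve is not "très ramifiée" at
`p ∣ abc`
-/

set_option autoImplicit false

namespace Fermat.Agent.S44Lib

open WeierstrassCurve WeierstrassCurve.Affine Polynomial
open Fermat.Agent.S05Lib Fermat.Agent.S13Lib Fermat.Agent.S36Lib Fermat.Agent.S52Lib
  Fermat.Agent.S40Lib

local notation "Qb" => AlgebraicClosure ℚ
local notation "GQ" => (AlgebraicClosure ℚ ≃ₐ[ℚ] AlgebraicClosure ℚ)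

theorem not_isTres_of_model (P : FreyPackage) (hpabc : (P.p : ℤ) ∣ P.a * P.b * P.c)
    {W : WeierstrassCurve ℤ} (hW : W.IsIntegralModelOf P.freyCurve)
    (A : ValuationSubring Qb) (hA : A.LiesOverPrime P.p) (x y : ETor W P.p) :
    ¬ IsTres A P.p (actE W P.p) x y := by
  obtain ⟨C, hC⟩ := hW
  have hex := exists_equiv_variableChange P.freyCurve (frey_Δ_ne_zero P) C
  rw [hC] at hex
  obtain ⟨Θ, hΘ⟩ := hex
  have hΘs : ∀ (σ : GQ) (Q : EPt W), Θ.symm (σ • Q) = σ • Θ.symm Q := by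
    intro σ Q
    apply Θ.injective
    rw [hΘ, Θ.apply_symm_apply, Θ.apply_symm_apply]
  have hx : P.p • (x : EPt W) = 0 := by
    have := (Submodule.mem_torsionBy_iff _ _).mp x.2
    rwa [natCast_zsmul] at this
  have hy : P.p • (y : EPt W) = 0 := by
    have := (Submodule.mem_torsionBy_iff _ _).mp y.2
    rwa [natCast_zsmul] at this
  intro hT
  apply not_isTres_frey P hpabc A hA (Θ.symm (x : EPt W)) (Θ.symm (y : EPt W))
    (by rw [← map_nsmul, hx, map_zero]) (by rw [← map_nsmul, hy, map_zero])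
  obtain ⟨ζ, ϖ, u, n, h1, h3, h4, h5, h6, h7, hy0, hχ, hκ⟩ := hT
  refine ⟨ζ, ϖ, u, n, h1, h3, h4, h5, h6, h7, ?_, ?_, ?_⟩
  · intro h0
    apply hy0
    apply Subtype.ext
    have := congrArg Θ h0
    rwa [Θ.apply_symm_apply, map_zero] at this
  · intro σ hσ j hj
    have h8 : σ • (y : EPt W) = j • (y : EPt W) := congrArg Subtype.val (hχ σ hσ j hj)
    show σ • Θ.symm (y : EPt W) = _
    rw [← hΘs, h8, map_nsmul]
  · intro σ hσ hσζ j hj
    have h8 : σ • (x : EPt W) = (x : EPt W) + j • (y : EPt W) :=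
      congrArg Subtype.val (hκ σ hσ hσζ j hj)
    show σ • Θ.symm (x : EPt W) = _
    rw [← hΘs, h8, map_add, map_nsmul]

end Fermat.Agent.S44Lib
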