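import Fermat.Agent.S40.FrobW
import Fermat.Prelude.Def_FLTPrelim_FreyPackage
import Fermat.Prelude.Def_FLTPrelim_Modularity

/-!
# S44 block (E44), leaf (T1): a change of variables over `ℚ` induces a Galois equivariant
isomorphism on the `Qbar`-points
-/

set_option autoImplicit false

namespace Fermat.Agent.S44Lib

open WeierstrassCurve WeierstrassCurve.Affine Polynomial
open Fermat.Agent.S05Lib Fermat.Agent.S13Lib Fermat.Agent.S36Lib Fermat.Agent.S52Lib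
  Fermat.Agent.S40Lib

local notation "Qb" => AlgebraicClosure ℚ
local notation "GQ" => (AlgebraicClosure ℚ ≃ₐ[ℚ] AlgebraicClosure ℚ)

/-- passage to the short model, Galois equivariantly -/
theorem T1_short (E : WeierstrassCurve ℚ) (hΔ : E.Δ ≠ 0) (h2 : (2 : Qb) ≠ 0) :
    ∃ θ : (E⁄Qb).Point ≃+ Pt (algebraMap ℚ Qb (-27 * E.c₄)) (algebraMap ℚ Qb (-54 * E.c₆)),
      ∀ (σ : GQ) (v : (E⁄Qb).Point), θ (σ • v) =
        mapPt h2 (σ : Qb →+* Qb) (σ.commutes _) (σ.commutes _) (θ v) := by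
  have h3 : (3 : Qb) ≠ 0 := by norm_num
  have hVΔ : (E⁄Qb).Δ ≠ 0 := by
    show (E.map (algebraMap ℚ Qb)).Δ ≠ 0
    rw [WeierstrassCurve.map_Δ]
    simpa using hΔ
  obtain ⟨θ, hθ⟩ := exists_toShort h2 h3 (E⁄Qb) hVΔ
  have hc4 : -27 * (E⁄Qb).c₄ = algebraMap ℚ Qb (-27 * E.c₄) := by
    show -27 * (E.map (algebraMap ℚ Qb)).c₄ = _
    rw [WeierstrassCurve.map_c₄]
    simp
  have hc6 : -54 * (E⁄Qb).c₆ = algebraMap ℚ Qb (-54 * E.c₆) := by
    show -54 * (E.map (algebraMap ℚ Qb)).c₆ = _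
    rw [WeierstrassCurve.map_c₆]
    simp
  revert θ
  rw [hc4, hc6]
  intro θ hθ
  refine ⟨θ, ?_⟩
  intro σ v
  have ha1 : σ (E⁄Qb).a₁ = (E⁄Qb).a₁ := σ.commutes _
  have ha3 : σ (E⁄Qb).a₃ = (E⁄Qb).a₃ := σ.commutes _
  have hb2 : σ (E⁄Qb).b₂ = (E⁄Qb).b₂ := by
    show σ (E.map (algebraMap ℚ Qb)).b₂ = (E.map (algebraMap ℚ Qb)).b₂
    rw [WeierstrassCurve.map_b₂]
    exact σ.commutes _
  cases v with
  | zero =>
    show θ (σ • (0 : (E⁄Qb).Point)) = mapPt h2 (σ : Qb →+* Qb) _ _ (θ (0 : (E⁄Qb).Point))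
    have h0 : σ • (0 : (E⁄Qb).Point) = 0 := rfl
    rw [h0]
    have h1 : θ (0 : (E⁄Qb).Point) = 0 := map_zero θ
    rw [h1, map_zero]
  | some x y h =>
    apply co_injective
    rw [co_mapPt, hθ, Point.algEquiv_smul_def, Point.map_some, hθ]
    simp only [Option.map_some, Option.some.injEq, Prod.mk.injEq]
    constructor
    · show 36 * σ x + 3 * (E⁄Qb).b₂ = σ (36 * x + 3 * (E⁄Qb).b₂)
      rw [map_add, map_mul, map_mul, hb2, map_ofNat, map_ofNat]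
    · show 108 * (2 * σ y + (E⁄Qb).a₁ * σ x + (E⁄Qb).a₃) =
        σ (108 * (2 * y + (E⁄Qb).a₁ * x + (E⁄Qb).a₃))
      rw [map_mul, map_add, map_add, map_mul, map_mul, ha1, ha3, map_ofNat, map_ofNat]

/-- scaling between short models, as an equivalence -/
theorem T1_scale (h2 : (2 : Qb) ≠ 0) (u : Qb) (hu : u ≠ 0) {A B A' B' : Qb}
    (hA : A' = u ^ 4 * A) (hB : B' = u ^ 6 * B) :
    ∃ s : Pt A B ≃+ Pt A' B', ∀ P, co (s P) = (co P).map (fun c => (u ^ 2 * c.1, u ^ 3 * c.2)) := by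
  have hA1 : A' = u ^ 4 * (RingHom.id Qb) A := hA
  have hB1 : B' = u ^ 6 * (RingHom.id Qb) B := hB
  have hA2 : A = u⁻¹ ^ 4 * (RingHom.id Qb) A' := by
    rw [hA]; simp only [RingHom.id_apply]; field_simp
  have hB2 : B = u⁻¹ ^ 6 * (RingHom.id Qb) B' := by
    rw [hB]; simp only [RingHom.id_apply]; field_simp
  have hbij : Function.Bijective (mapScale h2 (RingHom.id Qb) u hu hA1 hB1) := by
    refine ⟨mapScale_injective _ _ _ _ _ _, ?_⟩
    intro Q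
    refine ⟨mapScale h2 (RingHom.id Qb) u⁻¹ (inv_ne_zero hu) hA2 hB2 Q, ?_⟩
    apply co_injective
    rw [co_mapScale, co_mapScale, Option.map_map]
    rcases co Q with _ | ⟨X, Y⟩
    · rfl
    · simp only [Option.map_some, Function.comp, RingHom.id_apply, Option.some.injEq,
        Prod.mk.injEq]
      constructor <;> field_simp
  refine ⟨AddEquiv.ofBijective (mapScale h2 (RingHom.id Qb) u hu hA1 hB1) hbij, ?_⟩
  intro P
  show co (mapScale h2 (RingHom.id Qb) u hu hA1 hB1 P) = _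
  rw [co_mapScale]
  rfl

/-- a change of variables over `ℚ` induces a Galois equivariant isomorphism on `Qbar`-points -/
theorem exists_equiv_variableChange (E : WeierstrassCurve ℚ) (hΔ : E.Δ ≠ 0)
    (C : VariableChange ℚ) :
    ∃ Θ : (E⁄Qb).Point ≃+ ((C • E)⁄Qb).Point, ∀ (σ : GQ) (P : (E⁄Qb).Point),
      Θ (σ • P) = σ • Θ P := by
  have h2 : (2 : Qb) ≠ 0 := by norm_num
  have hΔ' : (C • E).Δ ≠ 0 := by
    rw [WeierstrassCurve.variableChange_Δ]
    exact mul_ne_zero (by simp) hΔ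
  obtain ⟨θ₁, h₁⟩ := T1_short E hΔ h2
  obtain ⟨θ₂, h₂⟩ := T1_short (C • E) hΔ' h2
  have hu : algebraMap ℚ Qb ((C.u⁻¹ : ℚˣ) : ℚ) ≠ 0 := by simp
  obtain ⟨s, hs⟩ := T1_scale h2 (algebraMap ℚ Qb ((C.u⁻¹ : ℚˣ) : ℚ)) hu
    (A := algebraMap ℚ Qb (-27 * E.c₄)) (B := algebraMap ℚ Qb (-54 * E.c₆))
    (A' := algebraMap ℚ Qb (-27 * (C • E).c₄)) (B' := algebraMap ℚ Qb (-54 * (C • E).c₆))
    (by rw [WeierstrassCurve.variableChange_c₄, ← map_pow, ← map_mul]; congr 1; ring)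
    (by rw [WeierstrassCurve.variableChange_c₆, ← map_pow, ← map_mul]; congr 1; ring)
  refine ⟨(θ₁.trans s).trans θ₂.symm, ?_⟩
  intro σ P
  apply θ₂.injective
  rw [h₂]
  simp only [AddEquiv.trans_apply, AddEquiv.apply_symm_apply]
  rw [h₁]
  apply co_injective
  rw [hs, co_mapPt, co_mapPt, hs, Option.map_map, Option.map_map]
  rcases co (θ₁ P) with _ | ⟨X, Y⟩
  · rfl
  · simp only [Option.map_some, Function.comp, Option.some.injEq, Prod.mk.injEq]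
    constructor
    · show _ = σ (_ * X)
      rw [map_mul, map_pow, σ.commutes]
      rfl
    · show _ = σ (_ * Y)
      rw [map_mul, map_pow, σ.commutes]
      rfl

theorem frey_Δ_ne_zero (P : FreyPackage) : P.freyCurve.Δ ≠ 0 := by
  have h : P.freyCurve.Δ = ((P.a : ℚ) ^ P.p * (P.b : ℚ) ^ P.p * (P.c : ℚ) ^ P.p) ^ 2 / 256 := by
    have hc : (P.c : ℚ) ^ P.p = (P.a : ℚ) ^ P.p + (P.b : ℚ) ^ P.p := by
      exact_mod_cast (congrArg (Int.cast : ℤ → ℚ) P.hFLT).symm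
    rw [hc]
    simp only [WeierstrassCurve.Δ, WeierstrassCurve.b₂, WeierstrassCurve.b₄, WeierstrassCurve.b₆,
      WeierstrassCurve.b₈, FreyPackage.freyCurve]
    ring
  rw [h]
  have ha : (P.a : ℚ) ≠ 0 := by exact_mod_cast P.ha0
  have hb : (P.b : ℚ) ≠ 0 := by exact_mod_cast P.hb0
  have hc : (P.c : ℚ) ≠ 0 := by exact_mod_cast P.hc0
  positivity

theorem Δ_ne_zero_of_model (P : FreyPackage) {W : WeierstrassCurve ℤ}
    (hW : W.IsIntegralModelOf P.freyCurve) : W.Δ ≠ 0 := by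
  obtain ⟨C, hC⟩ := hW
  intro h0
  have h1 : (C • P.freyCurve).Δ = 0 := by
    rw [hC, WeierstrassCurve.map_Δ, h0, map_zero]
  rw [WeierstrassCurve.variableChange_Δ] at h1
  rcases mul_eq_zero.mp h1 with h | h
  · simp at h
  · exact frey_Δ_ne_zero P h

end Fermat.Agent.S44Lib
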